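/-
S14 / SPLIT (helper13), algebraic part.

`K ∋ ζ_p` a number field, `K'/K` a Galois extension of number fields of degree `p` generated by a
`p`-th root `β` of `u ∈ 𝓞 K`, with `σ ∈ Gal(K'/K)`, `σ β = ζ β`.
If `Q` is a prime of `𝓞 K` with `p, u ∉ Q` and `u` is a `p`-th power modulo `Q`, then there are
exactly `p` primes of `𝓞 K'` above `Q`, each of absolute norm `N(Q)`.

Direct argument (Galois orbit + fundamental identity); no Kummer–Dedekind, no conductor.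
-/
import Mathlib

set_option autoImplicit false

open NumberField Ideal
open scoped Pointwise

namespace Fermat.Agent.S14.Split13

section Ring

variable {R : Type*} [CommRing R] [IsDomain R]

/-- If `μ ≠ 1` is a `p`-th root of unity in a domain and `(μ - 1) * b ∈ P` then `p * b ∈ P`. -/
lemma natCast_mul_mem_of_sub_one_mul_mem {p : ℕ} {μ b : R} (hμp : μ ^ p = 1) (hμ1 : μ ≠ 1)
    {P : Ideal R} (h : (μ - 1) * b ∈ P) : (p : R) * b ∈ P := by
  have hsum : ∑ k ∈ Finset.range p, μ ^ k = 0 := by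
    have h1 : (∑ k ∈ Finset.range p, μ ^ k) * (μ - 1) = 0 := by
      rw [geom_sum_mul, hμp, sub_self]
    rcases mul_eq_zero.mp h1 with h2 | h2
    · exact h2
    · exact absurd (sub_eq_zero.mp h2) hμ1
  have hp : (p : R) = ∑ k ∈ Finset.range p, (1 - μ ^ k) := by
    rw [Finset.sum_sub_distrib, hsum, sub_zero]
    simp
  rw [hp, Finset.sum_mul]
  refine P.sum_mem fun k _ => ?_
  have hk : (1 - μ ^ k) * b = -(∑ i ∈ Finset.range k, μ ^ i) * ((μ - 1) * b) := by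
    have := geom_sum_mul μ k
    rw [← mul_assoc, neg_mul, this]
    ring
  rw [hk]
  exact P.mul_mem_left _ h

end Ring

variable {K K' : Type*} [Field K] [NumberField K] [Field K'] [NumberField K'] [Algebra K K']
  [IsGalois K K']

/-- the Galois action fixes the image of `𝓞 K`. -/
lemma smul_algebraMap_int (σ : K' ≃ₐ[K] K') (y : 𝓞 K) :
    σ • (algebraMap (𝓞 K) (𝓞 K') y) = algebraMap (𝓞 K) (𝓞 K') y :=
  smul_algebraMap σ y


/-- `σ^k β = ζ^k β`. -/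
lemma pow_smul_root {ζ : 𝓞 K} {β : 𝓞 K'} {σ : K' ≃ₐ[K] K'}
    (hσ : σ • β = algebraMap (𝓞 K) (𝓞 K') ζ * β) (k : ℕ) :
    σ ^ k • β = algebraMap (𝓞 K) (𝓞 K') ζ ^ k * β := by
  induction k with
  | zero => simp
  | succ k ih =>
    rw [pow_succ', mul_smul, ih, smul_mul', smul_pow', smul_algebraMap_int, hσ]
    ring

/-- **Key step**: a nontrivial power of `σ` moves every prime above `Q`. -/
lemma pow_smul_ne {p : ℕ} [hp : Fact p.Prime] {ζ : 𝓞 K} (hζ : IsPrimitiveRoot ζ p)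
    {u y : 𝓞 K} {β : 𝓞 K'} (hβ : β ^ p = algebraMap (𝓞 K) (𝓞 K') u) {σ : K' ≃ₐ[K] K'}
    (hσ : σ • β = algebraMap (𝓞 K) (𝓞 K') ζ * β)
    (Q : Ideal (𝓞 K)) (hpQ : (p : 𝓞 K) ∉ Q) (huQ : u ∉ Q)
    (P : Ideal (𝓞 K')) [P.IsPrime] [P.LiesOver Q]
    (hy : β - algebraMap (𝓞 K) (𝓞 K') y ∈ P) {k : ℕ} (hk0 : 0 < k) (hkp : k < p) :
    σ ^ k • P ≠ P := by
  intro heq
  have hinj : Function.Injective (algebraMap (𝓞 K) (𝓞 K')) :=
    FaithfulSMul.algebraMap_injective (𝓞 K) (𝓞 K')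
  have hζ' : IsPrimitiveRoot (algebraMap (𝓞 K) (𝓞 K') ζ) p := hζ.map_of_injective hinj
  have h1 : σ ^ k • (β - algebraMap (𝓞 K) (𝓞 K') y) ∈ P := by
    rw [← heq]
    exact (Ideal.smul_mem_pointwise_smul_iff).mpr hy
  rw [smul_sub, pow_smul_root hσ, smul_algebraMap_int] at h1
  have h2 : (algebraMap (𝓞 K) (𝓞 K') ζ ^ k - 1) * β ∈ P := by
    have := P.sub_mem h1 hy
    have e : (algebraMap (𝓞 K) (𝓞 K') ζ ^ k - 1) * β =
        algebraMap (𝓞 K) (𝓞 K') ζ ^ k * β - algebraMap (𝓞 K) (𝓞 K') y -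
          (β - algebraMap (𝓞 K) (𝓞 K') y) := by ring
    rw [e]
    exact this
  have hμp : (algebraMap (𝓞 K) (𝓞 K') ζ ^ k) ^ p = 1 := by
    rw [← pow_mul, mul_comm, pow_mul, hζ'.pow_eq_one, one_pow]
  have hμ1 : algebraMap (𝓞 K) (𝓞 K') ζ ^ k ≠ 1 := hζ'.pow_ne_one_of_pos_of_lt hk0.ne' hkp
  have h3 := natCast_mul_mem_of_sub_one_mul_mem hμp hμ1 h2
  rcases (inferInstance : P.IsPrime).mem_or_mem h3 with h4 | h4
  · apply hpQ
    rw [Ideal.mem_of_liesOver P Q]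
    simpa using h4
  · apply huQ
    rw [Ideal.mem_of_liesOver P Q, ← hβ]
    exact P.pow_mem_of_mem h4 p hp.out.pos


omit [NumberField K] [NumberField K'] [IsGalois K K'] in
/-- There is a prime above `Q` containing `β - y` for some `y ∈ 𝓞 K`. -/
lemma exists_prime_sub_mem {p : ℕ} [hp : Fact p.Prime] {ζ : 𝓞 K} (hζ : IsPrimitiveRoot ζ p)
    {u x : 𝓞 K} {β : 𝓞 K'} (hβ : β ^ p = algebraMap (𝓞 K) (𝓞 K') u)
    (Q : Ideal (𝓞 K)) [Q.IsPrime] (hx : x ^ p - u ∈ Q)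
    (P : Ideal (𝓞 K')) [P.IsPrime] [P.LiesOver Q] :
    ∃ y : 𝓞 K, β - algebraMap (𝓞 K) (𝓞 K') y ∈ P := by
  have hinj : Function.Injective (algebraMap (𝓞 K) (𝓞 K')) :=
    FaithfulSMul.algebraMap_injective (𝓞 K) (𝓞 K')
  have hζ' : IsPrimitiveRoot (algebraMap (𝓞 K) (𝓞 K') ζ) p := hζ.map_of_injective hinj
  have hprod := hζ'.pow_sub_pow_eq_prod_sub_mul β (algebraMap (𝓞 K) (𝓞 K') x) hp.out.pos
  have hmem : β ^ p - algebraMap (𝓞 K) (𝓞 K') x ^ p ∈ P := by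
    have h1 : β ^ p - algebraMap (𝓞 K) (𝓞 K') x ^ p = algebraMap (𝓞 K) (𝓞 K') (-(x ^ p - u)) := by
      rw [hβ]; simp
    rw [h1, ← Ideal.mem_of_liesOver P Q]
    exact Q.neg_mem hx
  rw [hprod] at hmem
  obtain ⟨μ, hμ, hμP⟩ := Ideal.IsPrime.prod_mem_iff.mp hmem
  have hμ1 : μ ^ p = 1 := (Polynomial.mem_nthRootsFinset hp.out.pos 1).mp hμ
  obtain ⟨i, -, hi⟩ := hζ'.eq_pow_of_pow_eq_one hμ1
  refine ⟨ζ ^ i * x, ?_⟩
  rw [map_mul, map_pow, hi]
  exact hμP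

/-- **SPLIT, algebraic core.** `Q ∤ p u` and `u ≡ x^p mod Q` ⟹ exactly `p` primes above `Q`,
all of norm `N(Q)`. -/
theorem ncard_primesOver_and_absNorm {p : ℕ} [hp : Fact p.Prime] (hdeg : Module.finrank K K' = p)
    {ζ : 𝓞 K} (hζ : IsPrimitiveRoot ζ p) {u x : 𝓞 K} {β : 𝓞 K'}
    (hβ : β ^ p = algebraMap (𝓞 K) (𝓞 K') u) {σ : K' ≃ₐ[K] K'}
    (hσ : σ • β = algebraMap (𝓞 K) (𝓞 K') ζ * β)
    (Q : Ideal (𝓞 K)) [Q.IsPrime] (hpQ : (p : 𝓞 K) ∉ Q) (huQ : u ∉ Q) (hx : x ^ p - u ∈ Q) :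
    (Q.primesOver (𝓞 K')).ncard = p ∧
      ∀ P ∈ Q.primesOver (𝓞 K'), Ideal.absNorm P = Ideal.absNorm Q := by
  classical
  obtain ⟨⟨P, hPprime, hPover⟩⟩ : Nonempty (Q.primesOver (𝓞 K')) := inferInstance
  obtain ⟨y, hy⟩ := exists_prime_sub_mem hζ hβ Q hx P
  -- the `p` conjugates of `P` are distinct
  let f : Fin p → Q.primesOver (𝓞 K') := fun i => Ideal.primesOver.mk Q (σ ^ (i : ℕ) • P)
  have hne : ∀ k : ℕ, 0 < k → k < p → σ ^ k • P ≠ P := fun k hk0 hkp =>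
    pow_smul_ne hζ hβ hσ Q hpQ huQ P hy hk0 hkp
  have hf : Function.Injective f := by
    have key : ∀ i j : ℕ, i < j → j < p → σ ^ i • P = σ ^ j • P → False := by
      intro i j hij hjp h
      apply hne (j - i) (by omega) (by omega)
      have : σ ^ j = σ ^ i * σ ^ (j - i) := by rw [← pow_add]; congr 1; omega
      rw [this, mul_smul] at h
      exact (smul_left_cancel _ h).symm
    intro i j hij
    have h : σ ^ (i : ℕ) • P = σ ^ (j : ℕ) • P := congrArg Subtype.val hij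
    rcases lt_trichotomy (i : ℕ) (j : ℕ) with h1 | h1 | h1
    · exact (key _ _ h1 j.2 h).elim
    · exact Fin.ext h1
    · exact (key _ _ h1 i.2 h.symm).elim
  have hfin : Finite (Q.primesOver (𝓞 K')) := (Algebra.QuasiFinite.finite_primesOver Q)
  have hcard : p ≤ (Q.primesOver (𝓞 K')).ncard := by
    have := Nat.card_le_card_of_injective f hf
    rwa [Nat.card_fin, Nat.card_coe_set_eq] at this
  have hfund := Ideal.ncard_primesOver_mul_ramificationIdxIn_mul_inertiaDegIn Q (𝓞 K')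
    (K' ≃ₐ[K] K')
  rw [IsGalois.card_aut_eq_finrank, hdeg] at hfund
  have he : Q.ramificationIdxIn (𝓞 K') ≠ 0 := Ideal.ramificationIdxIn_ne_zero (K' ≃ₐ[K] K')
  have hfd : Q.inertiaDegIn (𝓞 K') ≠ 0 := Ideal.inertiaDegIn_ne_zero (K' ≃ₐ[K] K')
  have hef : 1 ≤ Q.ramificationIdxIn (𝓞 K') * Q.inertiaDegIn (𝓞 K') :=
    Nat.one_le_iff_ne_zero.mpr (mul_ne_zero he hfd)
  have hp0 : 0 < p := hp.out.pos
  have hcard' : (Q.primesOver (𝓞 K')).ncard = p := by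
    apply le_antisymm _ hcard
    calc (Q.primesOver (𝓞 K')).ncard
        ≤ (Q.primesOver (𝓞 K')).ncard *
            (Q.ramificationIdxIn (𝓞 K') * Q.inertiaDegIn (𝓞 K')) :=
          Nat.le_mul_of_pos_right _ hef
      _ = p := hfund
  refine ⟨hcard', ?_⟩
  rw [hcard'] at hfund
  have hef1 : Q.ramificationIdxIn (𝓞 K') * Q.inertiaDegIn (𝓞 K') = 1 := by
    have : p * (Q.ramificationIdxIn (𝓞 K') * Q.inertiaDegIn (𝓞 K')) = p * 1 := by
      rw [hfund, mul_one]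
    exact Nat.eq_of_mul_eq_mul_left hp0 this
  have hf1 : Q.inertiaDegIn (𝓞 K') = 1 := Nat.eq_one_of_mul_eq_one_left hef1
  rintro P' ⟨hP'prime, hP'over⟩
  have h1 := Ideal.inertiaDegIn_eq_inertiaDeg Q P' (K' ≃ₐ[K] K')
  have h2 := Ideal.absNorm_pow_inertiaDeg Q P'
  rw [← h1, hf1, pow_one] at h2
  exact h2.symm

end Fermat.Agent.S14.Split13
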