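/-
S14 / SPLIT (helper13), (E2): the primes of a number field whose absolute norm is not a rational
prime ("degree ≥ 2") contribute a bounded amount to `∑_Q N(Q)^(-s)`, `s ∈ [1, ∞)`.
-/
import Mathlib
import Fermat.Agent.S14.Euler23

set_option autoImplicit false
set_option linter.style.haveILetI false
set_option linter.unusedSectionVars false

open NumberField Ideal IsDedekindDomain
open Fermat.Agent.S14.Euler23

namespace Fermat.Agent.S14.Split13

variable {K : Type*} [Field K] [NumberField K]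

/-- The rational prime below `Q`. -/
noncomputable def primeBelow (Q : HeightOneSpectrum (𝓞 K)) : ℕ := absNorm (under ℤ Q.asIdeal)

lemma primeBelow_prime (Q : HeightOneSpectrum (𝓞 K)) : (primeBelow Q).Prime := by
  haveI : NeZero Q.asIdeal := ⟨Q.ne_bot⟩
  exact Nat.absNorm_under_prime Q.asIdeal

instance liesOver_primeBelow (Q : HeightOneSpectrum (𝓞 K)) :
    Q.asIdeal.LiesOver (span {((primeBelow Q : ℕ) : ℤ)}) :=
  Int.liesOver_span_absNorm Q.asIdeal

lemma primeBelow_pow_inertiaDeg (Q : HeightOneSpectrum (𝓞 K)) :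
    primeBelow Q ^ Q.asIdeal.inertiaDeg ℤ = absNorm Q.asIdeal :=
  Ideal.pow_inertiaDeg (primeBelow Q) Q.asIdeal

/-- a prime whose norm is not a rational prime has norm `≥ q²`. -/
lemma primeBelow_sq_le (Q : HeightOneSpectrum (𝓞 K)) (hQ : ¬ (absNorm Q.asIdeal).Prime) :
    primeBelow Q ^ 2 ≤ absNorm Q.asIdeal := by
  rw [← primeBelow_pow_inertiaDeg Q]
  have hpos : 0 < Q.asIdeal.inertiaDeg ℤ := Q.asIdeal.inertiaDeg_pos ℤ
  have hne : Q.asIdeal.inertiaDeg ℤ ≠ 1 := by
    intro h1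
    apply hQ
    rw [← primeBelow_pow_inertiaDeg Q, h1, pow_one]
    exact primeBelow_prime Q
  exact Nat.pow_le_pow_right (primeBelow_prime Q).pos (by omega)


/-- At most `[K:ℚ]` primes lie over a given rational prime. -/
lemma card_filter_primeBelow_le (T : Finset (HeightOneSpectrum (𝓞 K))) (q : ℕ) :
    (T.filter (fun Q => primeBelow Q = q)).card ≤ Module.finrank ℚ K := by
  classical
  by_cases hq : q.Prime
  · haveI : (span {(q : ℤ)} : Ideal ℤ).IsPrime :=
      (span_singleton_prime (by exact_mod_cast hq.ne_zero)).mpr (Nat.prime_iff_prime_int.mp hq)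
    have hfin : ((span {(q : ℤ)} : Ideal ℤ).primesOver (𝓞 K)).Finite :=
      Algebra.QuasiFinite.finite_primesOver _
    letI := hfin.fintype
    have hsum := Ideal.sum_ramification_inertia_eq_finrank (span {(q : ℤ)} : Ideal ℤ) (𝓞 K)
    have hcard : Fintype.card ((span {(q : ℤ)} : Ideal ℤ).primesOver (𝓞 K)) ≤
        Module.finrank ℤ (𝓞 K) := by
      rw [← hsum, Fintype.card_eq_sum_ones]
      refine Finset.sum_le_sum fun P _ => ?_
      have h1 := P.1.ramificationIdx_pos ℤ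
      have h2 := P.1.inertiaDeg_pos ℤ
      exact Nat.one_le_iff_ne_zero.mpr (mul_ne_zero h1.ne' h2.ne')
    rw [RingOfIntegers.rank] at hcard
    refine le_trans ?_ hcard
    rw [← Fintype.card_coe]
    refine Fintype.card_le_of_injective
      (fun Q : {Q // Q ∈ T.filter (fun Q => primeBelow Q = q)} =>
        (⟨Q.1.asIdeal, Q.1.isPrime, by
          have h := (Finset.mem_filter.mp Q.2).2
          have h2 := liesOver_primeBelow Q.1
          rwa [h] at h2⟩ : (span {(q : ℤ)} : Ideal ℤ).primesOver (𝓞 K))) ?_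
    intro Q Q' h
    apply Subtype.ext
    apply HeightOneSpectrum.ext
    exact congrArg Subtype.val h
  · have : T.filter (fun Q => primeBelow Q = q) = ∅ := by
      rw [Finset.filter_eq_empty_iff]
      intro Q _ h
      exact hq (h ▸ primeBelow_prime Q)
    rw [this, Finset.card_empty]
    exact Nat.zero_le _


/-- for `s ≥ 1` and `Q` of degree `≥ 2`: `N(Q)^(-s) ≤ 1/q²`. -/
lemma pN_le_inv_sq (Q : HeightOneSpectrum (𝓞 K)) (hQ : ¬ (absNorm Q.asIdeal).Prime) {s : ℝ}
    (hs : 1 ≤ s) : pN Q s ≤ 1 / (primeBelow Q : ℝ) ^ 2 := by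
  have hq : (0 : ℝ) < (primeBelow Q : ℝ) := by exact_mod_cast (primeBelow_prime Q).pos
  have h1 : ((primeBelow Q : ℝ)) ^ 2 ≤ (absNorm Q.asIdeal : ℝ) := by
    exact_mod_cast primeBelow_sq_le Q hQ
  have hN : (1 : ℝ) ≤ (absNorm Q.asIdeal : ℝ) := by
    have := two_le_absNorm Q; linarith
  unfold pN
  calc (absNorm Q.asIdeal : ℝ) ^ (-s) ≤ (absNorm Q.asIdeal : ℝ) ^ (-(1 : ℝ)) :=
        Real.rpow_le_rpow_of_exponent_le hN (by linarith)
    _ = 1 / (absNorm Q.asIdeal : ℝ) := by rw [Real.rpow_neg_one, one_div]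
    _ ≤ 1 / (primeBelow Q : ℝ) ^ 2 := one_div_le_one_div_of_le (by positivity) h1

/-- finite-sum form of (E2) -/
lemma sum_pN_degTwo_le (T : Finset (HeightOneSpectrum (𝓞 K)))
    (hT : ∀ Q ∈ T, ¬ (absNorm Q.asIdeal).Prime) {s : ℝ} (hs : 1 ≤ s) :
    ∑ Q ∈ T, pN Q s ≤ Module.finrank ℚ K * ∑' m : ℕ, 1 / (m : ℝ) ^ 2 := by
  classical
  have hsumm : Summable (fun m : ℕ => 1 / (m : ℝ) ^ 2) :=
    Real.summable_one_div_nat_pow.mpr (by norm_num)
  calc ∑ Q ∈ T, pN Q s ≤ ∑ Q ∈ T, 1 / (primeBelow Q : ℝ) ^ 2 :=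
        Finset.sum_le_sum fun Q hQ => pN_le_inv_sq Q (hT Q hQ) hs
    _ = ∑ q ∈ T.image primeBelow, ∑ Q ∈ T.filter (fun Q => primeBelow Q = q),
          1 / (primeBelow Q : ℝ) ^ 2 :=
        (Finset.sum_fiberwise_of_maps_to (fun Q hQ => Finset.mem_image_of_mem _ hQ) _).symm
    _ = ∑ q ∈ T.image primeBelow, ((T.filter (fun Q => primeBelow Q = q)).card : ℝ) *
          (1 / (q : ℝ) ^ 2) := by
        refine Finset.sum_congr rfl fun q _ => ?_
        rw [Finset.sum_congr rfl (g := fun _ => 1 / (q : ℝ) ^ 2)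
          (fun Q hQ => by rw [(Finset.mem_filter.mp hQ).2])]
        rw [Finset.sum_const, nsmul_eq_mul]
    _ ≤ ∑ q ∈ T.image primeBelow, (Module.finrank ℚ K : ℝ) * (1 / (q : ℝ) ^ 2) := by
        refine Finset.sum_le_sum fun q _ => ?_
        apply mul_le_mul_of_nonneg_right _ (by positivity)
        exact_mod_cast card_filter_primeBelow_le T q
    _ = (Module.finrank ℚ K : ℝ) * ∑ q ∈ T.image primeBelow, 1 / (q : ℝ) ^ 2 := by
        rw [Finset.mul_sum]
    _ ≤ Module.finrank ℚ K * ∑' m : ℕ, 1 / (m : ℝ) ^ 2 := by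
        apply mul_le_mul_of_nonneg_left _ (by positivity)
        exact hsumm.sum_le_tsum _ (fun m _ => by positivity)

/-- The set of primes of degree `≥ 2` (absolute norm not a rational prime). -/
def degTwoSet (K : Type*) [Field K] [NumberField K] : Set (HeightOneSpectrum (𝓞 K)) :=
  {Q | ¬ (absNorm Q.asIdeal).Prime}

/-- **(E2)** the primes of degree `≥ 2` contribute `O(1)` to `∑_Q N(Q)^(-s)`, `s > 1`. -/
theorem tsum_pN_degTwo_le {s : ℝ} (hs : 1 < s) :
    ∑' Q : degTwoSet K, pN Q.1 s ≤ Module.finrank ℚ K * ∑' m : ℕ, 1 / (m : ℝ) ^ 2 := by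
  classical
  have hsum : Summable (fun Q : degTwoSet K => pN Q.1 s) := (summable_pN hs).subtype _
  refine hsum.tsum_le_of_sum_le fun u => ?_
  have := sum_pN_degTwo_le (u.map (Function.Embedding.subtype _)) (by
    intro Q hQ
    obtain ⟨Q', _, rfl⟩ := Finset.mem_map.mp hQ
    exact Q'.2) hs.le
  rwa [Finset.sum_map] at this

end Fermat.Agent.S14.Split13
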