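/-
S14 / SPLIT (helper13): the Kummer extension `K' = K(u^{1/p})` of a number field `K ∋ ζ_p`,
packaged as a number field with the data needed by `Alg.lean`.
-/
import Mathlib

set_option autoImplicit false
set_option linter.style.haveILetI false

open NumberField Polynomial
open scoped KummerExtension

namespace Fermat.Agent.S14.Split13

/-- **Existence of the Kummer extension.** `K` a number field containing a primitive `p`-th root
of unity `ζ`, `u ∈ 𝓞 K` not a `p`-th power in `K`.  Then there is a number field `K'`, Galois of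
degree `p` over `K`, an integer `β ∈ 𝓞 K'` with `β^p = u`, and `σ ∈ Gal(K'/K)` with `σ β = ζ β`. -/
theorem exists_kummer_ext (K : Type) [Field K] [NumberField K] (p : ℕ) [hp : Fact p.Prime]
    (ζ : 𝓞 K) (hζ : IsPrimitiveRoot ζ p) (u : 𝓞 K) (hu : ¬ ∃ v : K, v ^ p = (u : K)) :
    ∃ (K' : Type) (_ : Field K') (_ : NumberField K') (_ : Algebra K K') (_ : IsGalois K K'),
      Module.finrank K K' = p ∧ ∃ (β : 𝓞 K') (σ : K' ≃ₐ[K] K'),
        β ^ p = algebraMap (𝓞 K) (𝓞 K') u ∧ σ • β = algebraMap (𝓞 K) (𝓞 K') ζ * β := by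
  have hζK : IsPrimitiveRoot (ζ : K) p :=
    hζ.map_of_injective (RingOfIntegers.coe_injective)
  have H : Irreducible (X ^ p - C (u : K)) :=
    X_pow_sub_C_irreducible_of_prime hp.out (fun b hb => hu ⟨b, hb⟩)
  haveI := Fact.mk H
  have hprim : (primitiveRoots p K).Nonempty :=
    ⟨(ζ : K), (mem_primitiveRoots hp.out.pos).mpr hζK⟩
  have hmonic : (X ^ p - C (u : K)).Monic := monic_X_pow_sub_C _ hp.out.ne_zero
  haveI : Module.Finite K K[p√(u : K)] := (AdjoinRoot.powerBasis hmonic.ne_zero).finite
  haveI : NumberField K[p√(u : K)] := NumberField.of_module_finite K _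
  haveI : IsSplittingField K K[p√(u : K)] (X ^ p - C (u : K)) :=
    isSplittingField_AdjoinRoot_X_pow_sub_C hprim H
  have hgal : IsGalois K K[p√(u : K)] := isGalois_of_isSplittingField_X_pow_sub_C hprim H _
  have hdeg : Module.finrank K K[p√(u : K)] = p :=
    finrank_of_isSplittingField_X_pow_sub_C hprim H _
  refine ⟨K[p√(u : K)], inferInstance, inferInstance, inferInstance, hgal, hdeg, ?_⟩
  -- the root is an algebraic integer
  have hroot : (AdjoinRoot.root (X ^ p - C (u : K))) ^ p = algebraMap K K[p√(u : K)] (u : K) :=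
    root_X_pow_sub_C_pow p (u : K)
  have hint : IsIntegral ℤ (AdjoinRoot.root (X ^ p - C (u : K))) := by
    apply IsIntegral.of_pow hp.out.pos
    rw [hroot]
    exact (RingOfIntegers.isIntegral_coe u).algebraMap
  let η : rootsOfUnity p K := hζK.toRootsOfUnity
  refine ⟨⟨_, hint⟩, autAdjoinRootXPowSubC p (u : K) η, ?_, ?_⟩
  · apply RingOfIntegers.ext
    show (AdjoinRoot.root (X ^ p - C (u : K))) ^ p = _
    rw [hroot]
    rfl
  · apply RingOfIntegers.ext
    have h1 := autAdjoinRootXPowSubC_root (u : K) η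
    show autAdjoinRootXPowSubC p (u : K) η (AdjoinRoot.root _) = _
    rw [h1, Algebra.smul_def]
    rfl

end Fermat.Agent.S14.Split13
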