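/-
S14 / SPLIT (helper13): summing over the primes of `K'` above a finite set of totally split
primes of `K`.
-/
import Mathlib
import Fermat.Agent.S14.Euler23

set_option autoImplicit false
set_option linter.unusedSectionVars false

open NumberField Ideal IsDedekindDomain
open Fermat.Agent.S14.Euler23

namespace Fermat.Agent.S14.Split13

variable {K K' : Type*} [Field K] [NumberField K] [Field K'] [NumberField K'] [Algebra K K']

/-- The primes of `K'` above the prime `Q` of `K`, as height-one primes. -/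
def overSet (K' : Type*) [Field K'] [NumberField K'] [Algebra K K']
    (Q : HeightOneSpectrum (𝓞 K)) : Set (HeightOneSpectrum (𝓞 K')) :=
  {P | P.asIdeal.under (𝓞 K) = Q.asIdeal}

lemma image_overSet (Q : HeightOneSpectrum (𝓞 K)) :
    HeightOneSpectrum.asIdeal '' overSet K' Q = Q.asIdeal.primesOver (𝓞 K') := by
  ext P
  constructor
  · rintro ⟨P', hP', rfl⟩
    exact ⟨P'.isPrime, (liesOver_iff _ _).mpr hP'.symm⟩
  · rintro ⟨hP, hPQ⟩
    have hne : P ≠ ⊥ := by
      rintro rfl
      have h1 := (liesOver_iff _ _).mp hPQ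
      have hinj : Function.Injective (algebraMap (𝓞 K) (𝓞 K')) :=
        FaithfulSMul.algebraMap_injective (𝓞 K) (𝓞 K')
      apply Q.ne_bot
      rw [h1]
      exact Ideal.comap_bot_of_injective _ hinj
    exact ⟨⟨P, hP, hne⟩, ((liesOver_iff _ _).mp hPQ).symm, rfl⟩

lemma asIdeal_injective {R : Type*} [CommRing R] :
    Function.Injective (HeightOneSpectrum.asIdeal : HeightOneSpectrum R → Ideal R) :=
  fun _ _ h => HeightOneSpectrum.ext h

lemma overSet_finite (Q : HeightOneSpectrum (𝓞 K)) : (overSet K' Q).Finite := by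
  apply Set.Finite.of_finite_image _ asIdeal_injective.injOn
  rw [image_overSet]
  exact Algebra.QuasiFinite.finite_primesOver _

lemma ncard_overSet (Q : HeightOneSpectrum (𝓞 K)) :
    (overSet K' Q).ncard = (Q.asIdeal.primesOver (𝓞 K')).ncard := by
  rw [← image_overSet, Set.ncard_image_of_injective _ asIdeal_injective]

lemma overSet_disjoint {Q Q' : HeightOneSpectrum (𝓞 K)} (h : Q ≠ Q') :
    Disjoint (overSet K' Q) (overSet K' Q') := by
  rw [Set.disjoint_left]
  intro P hP hP'
  apply h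
  apply HeightOneSpectrum.ext
  rw [← hP, ← hP']

/-- **Fibre summation.** If every `Q ∈ u` has exactly `p` primes above it, all of norm `N(Q)`, then
`p ∑_{Q∈u} N(Q)^(-s) ≤ ∑_{P'} N(P')^(-s)`. -/
theorem mul_sum_pN_le {p : ℕ} (u : Finset (HeightOneSpectrum (𝓞 K)))
    (hu : ∀ Q ∈ u, (Q.asIdeal.primesOver (𝓞 K')).ncard = p ∧
      ∀ P ∈ Q.asIdeal.primesOver (𝓞 K'), absNorm P = absNorm Q.asIdeal) {s : ℝ} (hs : 1 < s) :
    (p : ℝ) * ∑ Q ∈ u, pN Q s ≤ ∑' P : HeightOneSpectrum (𝓞 K'), pN P s := by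
  classical
  let F : HeightOneSpectrum (𝓞 K) → Finset (HeightOneSpectrum (𝓞 K')) :=
    fun Q => (overSet_finite (K' := K') Q).toFinset
  have hF : ∀ Q ∈ u, ∑ P ∈ F Q, pN P s = (p : ℝ) * pN Q s := by
    intro Q hQ
    have hcard : (F Q).card = p := by
      rw [← (hu Q hQ).1, ← ncard_overSet (K' := K') Q, Set.ncard_eq_toFinset_card _ (overSet_finite Q)]
    rw [Finset.sum_congr rfl (g := fun _ => pN Q s), Finset.sum_const, hcard, nsmul_eq_mul]
    intro P hP
    have hP' : P ∈ overSet K' Q := (Set.Finite.mem_toFinset _).mp hP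
    have hmem : P.asIdeal ∈ Q.asIdeal.primesOver (𝓞 K') := by
      rw [← image_overSet]
      exact ⟨P, hP', rfl⟩
    unfold pN
    rw [(hu Q hQ).2 P.asIdeal hmem]
  have hdisj : (u : Set (HeightOneSpectrum (𝓞 K))).PairwiseDisjoint F := by
    intro Q _ Q' _ hne
    rw [Function.onFun, Finset.disjoint_left]
    intro P hP hP'
    exact Set.disjoint_left.mp (overSet_disjoint (K' := K') hne)
      ((Set.Finite.mem_toFinset _).mp hP) ((Set.Finite.mem_toFinset _).mp hP')
  calc (p : ℝ) * ∑ Q ∈ u, pN Q s = ∑ Q ∈ u, ∑ P ∈ F Q, pN P s := by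
        rw [Finset.mul_sum]
        exact Finset.sum_congr rfl fun Q hQ => (hF Q hQ).symm
    _ = ∑ P ∈ u.biUnion F, pN P s := (Finset.sum_biUnion hdisj).symm
    _ ≤ ∑' P : HeightOneSpectrum (𝓞 K'), pN P s :=
        (summable_pN hs).sum_le_tsum _ (fun P _ => pN_nonneg P s)

end Fermat.Agent.S14.Split13
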