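/-
S14 / SPLIT (helper13): the density lower bound.

`K ∋ ζ_p` a number field, `u ∈ 𝓞 K` nonzero, not a `p`-th power in `K`.  The degree-one primes
`Q ∤ p` of `K` modulo which `u` is NOT a `p`-th power satisfy
`∑_Q N(Q)^(-s) ≥ (1 - 1/p) log (1/(s-1)) - C` on `(1, 2]`.
-/
import Fermat.Agent.S14.Split13.Alg
import Fermat.Agent.S14.Split13.Ext
import Fermat.Agent.S14.Split13.DegTwo
import Fermat.Agent.S14.Split13.Fiber
import Fermat.Agent.S14.CoreIface

set_option autoImplicit false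
set_option linter.unusedSectionVars false
set_option linter.style.haveILetI false

open NumberField Ideal IsDedekindDomain
open Fermat.Agent.S14.Euler23

namespace Fermat.Agent.S14.Split13

variable (K : Type) [Field K] [NumberField K] (p : ℕ)

/-- degree-one primes not above `p` modulo which `u` is not a `p`-th power. -/
def nonResH (u : 𝓞 K) : Set (HeightOneSpectrum (𝓞 K)) :=
  {Q | (absNorm Q.asIdeal).Prime ∧ (p : 𝓞 K) ∉ Q.asIdeal ∧ ¬ IsPowMod p Q.asIdeal u}

/-- degree-one primes not dividing `p u` modulo which `u` is a `p`-th power. -/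
def resH (u : 𝓞 K) : Set (HeightOneSpectrum (𝓞 K)) :=
  {Q | (p : 𝓞 K) ∉ Q.asIdeal ∧ u ∉ Q.asIdeal ∧ IsPowMod p Q.asIdeal u}

/-- primes dividing `p u`. -/
def badH (u : 𝓞 K) : Set (HeightOneSpectrum (𝓞 K)) :=
  {Q | (p : 𝓞 K) * u ∈ Q.asIdeal}

variable {K p}

lemma badH_finite [hp : Fact p.Prime] {u : 𝓞 K} (hu0 : u ≠ 0) : (badH K p u).Finite := by
  have hne : (p : 𝓞 K) * u ≠ 0 :=
    mul_ne_zero (by exact_mod_cast hp.out.ne_zero) hu0
  have hI : Ideal.span {(p : 𝓞 K) * u} ≠ 0 := by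
    rw [Ne, Ideal.zero_eq_bot, Ideal.span_singleton_eq_bot]
    exact hne
  refine (Ideal.finite_factors hI).subset ?_
  intro Q hQ
  exact Ideal.dvd_span_singleton.mpr hQ

lemma mem_cover (u : 𝓞 K) (Q : HeightOneSpectrum (𝓞 K)) :
    Q ∈ nonResH K p u ∨ Q ∈ resH K p u ∨ Q ∈ badH K p u ∨ Q ∈ degTwoSet K := by
  by_cases h1 : (absNorm Q.asIdeal).Prime
  · by_cases h2 : (p : 𝓞 K) ∈ Q.asIdeal
    · exact Or.inr (Or.inr (Or.inl (Q.asIdeal.mul_mem_right _ h2)))
    · by_cases h3 : u ∈ Q.asIdeal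
      · exact Or.inr (Or.inr (Or.inl (Q.asIdeal.mul_mem_left _ h3)))
      · by_cases h4 : IsPowMod p Q.asIdeal u
        · exact Or.inr (Or.inl ⟨h2, h3, h4⟩)
        · exact Or.inl ⟨h1, h2, h4⟩
  · exact Or.inr (Or.inr (Or.inr h1))


/-- A nonnegative summable family indexed by a type covered by four sets. -/
lemma tsum_le_four {ι : Type*} (f : ι → ℝ) (hf : Summable f) (h0 : ∀ i, 0 ≤ f i)
    (A B C D : Set ι) (hcov : ∀ i, i ∈ A ∨ i ∈ B ∨ i ∈ C ∨ i ∈ D) :
    ∑' i, f i ≤ ∑' i : A, f i + ∑' i : B, f i + ∑' i : C, f i + ∑' i : D, f i := by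
  rw [tsum_subtype A f, tsum_subtype B f, tsum_subtype C f, tsum_subtype D f]
  have hA := hf.indicator A
  have hB := hf.indicator B
  have hC := hf.indicator C
  have hD := hf.indicator D
  rw [← (hA.tsum_add hB), ← ((hA.add hB).tsum_add hC), ← (((hA.add hB).add hC).tsum_add hD)]
  refine hf.tsum_le_tsum (fun i => ?_) (((hA.add hB).add hC).add hD)
  have hnA := Set.indicator_nonneg (s := A) (fun i _ => h0 i) i
  have hnB := Set.indicator_nonneg (s := B) (fun i _ => h0 i) i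
  have hnC := Set.indicator_nonneg (s := C) (fun i _ => h0 i) i
  have hnD := Set.indicator_nonneg (s := D) (fun i _ => h0 i) i
  rcases hcov i with h | h | h | h
  · rw [Set.indicator_of_mem h]; linarith
  · rw [Set.indicator_of_mem h (s := B)]; linarith
  · rw [Set.indicator_of_mem h (s := C)]; linarith
  · rw [Set.indicator_of_mem h (s := D)]; linarith

/-- **SPLIT, density form (height-one-prime indexing).** -/
theorem nonres_density_H [hp : Fact p.Prime] (ζ : 𝓞 K) (hζ : IsPrimitiveRoot ζ p) (u : 𝓞 K)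
    (hu0 : u ≠ 0) (hu : ¬ ∃ v : K, v ^ p = (u : K)) :
    ∃ C₀ : ℝ, ∀ s : ℝ, 1 < s → s ≤ 2 →
      (1 - 1 / (p : ℝ)) * Real.log (1 / (s - 1)) - C₀ ≤ ∑' Q : nonResH K p u, pN Q.1 s := by
  classical
  obtain ⟨K', instF, instNF, instAlg, instGal, hdeg, β, σ, hβ, hσ⟩ :=
    exists_kummer_ext K p ζ hζ u hu
  obtain ⟨C1, hC1⟩ := exists_bound_tsum_pN K
  obtain ⟨C3, hC3⟩ := exists_bound_tsum_pN K'
  set C2 : ℝ := Module.finrank ℚ K * ∑' m : ℕ, 1 / (m : ℝ) ^ 2 with hC2
  have hbad := badH_finite (K := K) (p := p) hu0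
  letI := hbad.fintype
  set nb : ℝ := (Fintype.card (badH K p u) : ℝ) with hnb
  have hp0 : (0 : ℝ) < p := by exact_mod_cast hp.out.pos
  refine ⟨C1 + C3 / p + nb + C2, fun s hs1 hs2 => ?_⟩
  have hsum : Summable (fun Q : HeightOneSpectrum (𝓞 K) => pN Q s) := summable_pN hs1
  -- total
  have htot := hC1 s hs1 hs2
  rw [abs_le] at htot
  -- cover
  have hcov := tsum_le_four (fun Q : HeightOneSpectrum (𝓞 K) => pN Q s) hsum
    (fun Q => pN_nonneg Q s) (nonResH K p u) (resH K p u) (badH K p u) (degTwoSet K)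
    (mem_cover u)
  -- degree two
  have hD : ∑' Q : degTwoSet K, pN Q.1 s ≤ C2 := tsum_pN_degTwo_le hs1
  -- bad primes
  have hB : ∑' Q : badH K p u, pN Q.1 s ≤ nb := by
    have hsB : Summable (fun Q : badH K p u => pN Q.1 s) := hsum.subtype _
    refine hsB.tsum_le_of_sum_le fun v => ?_
    calc ∑ Q ∈ v, pN Q.1 s ≤ ∑ _Q ∈ v, (1 : ℝ) :=
          Finset.sum_le_sum fun Q _ => (pN_le_half Q.1 hs1.le).trans (by norm_num)
      _ = v.card := by simp
      _ ≤ nb := by
          rw [hnb]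
          exact_mod_cast Finset.card_le_univ v
  -- residue primes: totally split in `K'`
  have hR : ∑' Q : resH K p u, pN Q.1 s ≤ (Real.log (1 / (s - 1)) + C3) / p := by
    have hsR : Summable (fun Q : resH K p u => pN Q.1 s) := hsum.subtype _
    refine hsR.tsum_le_of_sum_le fun v => ?_
    rw [le_div_iff₀' hp0]
    have hsplit := mul_sum_pN_le (K' := K') (p := p) (v.map (Function.Embedding.subtype _)) (by
      intro Q hQ
      obtain ⟨Q', _, rfl⟩ := Finset.mem_map.mp hQ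
      obtain ⟨hpQ, huQ, x, hx⟩ := Q'.2
      haveI : (Q'.1.asIdeal).IsPrime := Q'.1.isPrime
      exact ncard_primesOver_and_absNorm hdeg hζ hβ hσ Q'.1.asIdeal hpQ huQ hx) hs1
    rw [Finset.sum_map] at hsplit
    have h3 := hC3 s hs1 hs2
    rw [abs_le] at h3
    calc (p : ℝ) * ∑ Q ∈ v, pN Q.1 s ≤ ∑' P : HeightOneSpectrum (𝓞 K'), pN P s := hsplit
      _ ≤ Real.log (1 / (s - 1)) + C3 := by linarith [h3.2]
  -- conclusion
  have e : (1 - 1 / (p : ℝ)) * Real.log (1 / (s - 1)) - (C1 + C3 / p + nb + C2)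
      = (Real.log (1 / (s - 1)) - C1) - (Real.log (1 / (s - 1)) + C3) / p - nb - C2 := by
    field_simp
    ring
  rw [e]
  linarith [htot.1]

end Fermat.Agent.S14.Split13
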