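/-
S14 / K3 wiring (helper13): the two hypotheses `ExtHyp` (Kummer extension as a number field) and
`E2Hyp` (primes of degree `≥ 2` contribute `O(1)`) of helper27's `DensWire27.densStatement_of`,
so that `DensStatement` follows from the CNT input alone.
-/
import Fermat.Agent.S14.Split13.Ext
import Fermat.Agent.S14.Split13.DegTwo
import Fermat.Agent.S14.DensWire27

set_option autoImplicit false
set_option linter.style.haveILetI false

open NumberField IsDedekindDomain

namespace Fermat.Agent.S14.Split13

/-- `ExtHyp`: existence of `K(u^{1/p})` as a number field (from `exists_kummer_ext`). -/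
theorem extHyp : DensWire27.ExtHyp := by
  intro K _ _ p hp ζ hζ u _ hnot
  haveI : NeZero p := ⟨hp.out.ne_zero⟩
  obtain ⟨L, instF, instNF, instAlg, instGal, hdeg, β, σ, hβ, hσ⟩ :=
    exists_kummer_ext K p hζ.toInteger hζ.toInteger_isPrimitiveRoot u hnot
  refine ⟨L, instF, instNF, instAlg, instGal, hdeg, β, σ, hβ, ?_⟩
  have h := congrArg (fun x : 𝓞 L => (x : L)) hσ
  have h1 : ((σ • β : 𝓞 L) : L) = σ (β : L) := rfl
  have h2 : ((algebraMap (𝓞 K) (𝓞 L) hζ.toInteger * β : 𝓞 L) : L)
      = algebraMap K L ζ * (β : L) := by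
    rfl
  rw [h1, h2] at h
  exact h

/-- `E2Hyp`: the primes of degree `≥ 2` contribute `O(1)` (from `tsum_pN_degTwo_le`). -/
theorem e2Hyp : DensWire27.E2Hyp := by
  intro K _ _
  exact ⟨Module.finrank ℚ K * ∑' m : ℕ, 1 / (m : ℝ) ^ 2, fun s hs1 _ =>
    tsum_pN_degTwo_le (K := K) hs1⟩

/-- **K3 modulo CNT**: the density statement follows from the boundedness of the class-group
`L`-series. -/
theorem densStatement_of_cnt (hCNT : DensWire27.CntHyp) : DensStatement :=
  DensWire27.densStatement_of extHyp e2Hyp hCNT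

end Fermat.Agent.S14.Split13
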